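import Fermat.Agent.ShortMoebius.Law
import Fermat.Agent.SquarefreeShift.Count
import Fermat.Agent.MinkowskiHlawka.Count
import Fermat.Agent.DavenportMoebius.Corollaries

/-!
# The Möbius function and squarefree numbers in short intervals

`μ n = ∑_{d ^ 2 ∣ n} μ d · λ (n / d ^ 2)` and `∑_{d ^ 2 ∣ n} μ d` is the indicator of squarefree
numbers. The `d ≤ D` are governed by the law of `λ` on intervals of length `h / d ^ 2`, the larger
`d` have `O (h / D)` multiples on average.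
-/

set_option autoImplicit false

noncomputable section

namespace FA.ShortMoebius

open Finset Filter
open scoped Topology ArithmeticFunction.Moebius

open scoped Classical in
/-- The indicator of squarefree numbers. -/
def sqfree (n : ℕ) : ℝ := if Squarefree n then 1 else 0

/-- `∑_{d ^ 2 ∣ n} μ d`. -/
theorem sqfree_eq_sum {n M : ℕ} (hn : 0 < n) (hM : n ≤ M) :
    sqfree n = ∑ d ∈ Icc 1 M, if d ^ 2 ∣ n then (μ d : ℝ) else 0 := by
  classical
  rw [SquarefreeShift.sum_moebius_pow_dvd (r := 2) (by norm_num) hn hM, sqfree]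
  exact if_congr (SquarefreeShift.squarefree_iff_isPowFree n) rfl rfl

theorem moebius_eq_liouville_mul (n : ℕ) :
    (μ n : ℝ) = (ArithmeticFunction.liouville n : ℝ) * sqfree n := by
  classical
  by_cases hn : Squarefree n
  · simp [sqfree, hn, ArithmeticFunction.moebius_apply_of_squarefree hn,
      ArithmeticFunction.liouville_apply hn.ne_zero]
  · simp [sqfree, hn, ArithmeticFunction.moebius_eq_zero_of_not_squarefree hn]

theorem abs_sqfree_le (n : ℕ) : |sqfree n| ≤ 1 := by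
  rw [sqfree]
  split_ifs <;> norm_num

theorem abs_moebius_le (n : ℕ) : |(μ n : ℝ)| ≤ 1 := by
  rw [← Int.cast_abs]
  exact_mod_cast ArithmeticFunction.abs_moebius_le_one

theorem sum_multiples {M : Type*} [AddCommMonoid M] {q : ℕ} (hq : 0 < q) (a b : ℕ) (F : ℕ → M) :
    ∑ n ∈ (Ioc a b).filter (q ∣ ·), F n = ∑ k ∈ Ioc (a / q) (b / q), F (q * k) := by
  have key : ∀ k, k ∈ Ioc (a / q) (b / q) ↔ q * k ∈ Ioc a b := fun k => by
    rw [mem_Ioc, mem_Ioc, Nat.div_lt_iff_lt_mul hq, Nat.le_div_iff_mul_le hq, mul_comm k q]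
  refine sum_nbij' (· / q) (q * ·) (fun n hn => ?_) (fun k hk => ?_) (fun n hn => ?_)
    (fun k _ => ?_) (fun n hn => ?_)
  · obtain ⟨h1, h2⟩ := mem_filter.1 hn
    rw [key, Nat.mul_div_cancel' h2]
    exact h1
  · exact mem_filter.2 ⟨(key k).1 hk, dvd_mul_right q k⟩
  · exact Nat.mul_div_cancel' (mem_filter.1 hn).2
  · exact Nat.mul_div_cancel_left k hq
  · rw [Nat.mul_div_cancel' (mem_filter.1 hn).2]

/-- The multiples of a square in a window. -/
theorem sum_square_multiples_le {d h : ℕ} (hd : 0 < d) (m : ℕ) :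
    |∑ n ∈ (Ioc m (m + h)).filter (d ^ 2 ∣ ·), (ArithmeticFunction.liouville n : ℝ)| ≤
      |dev (fun n => (ArithmeticFunction.liouville n : ℝ)) 0 (h / d ^ 2) (m / d ^ 2)| + 1 := by
  obtain ⟨q, hq⟩ : ∃ q, q = d ^ 2 := ⟨_, rfl⟩
  have hq0 : 0 < q := hq ▸ pow_pos hd 2
  rw [← hq, sum_multiples hq0]
  have e : ∀ k, (ArithmeticFunction.liouville (q * k) : ℝ) = ArithmeticFunction.liouville k := by
    intro k
    rw [hq, ArithmeticFunction.liouville_apply_mul,
      ArithmeticFunction.liouville_apply (pow_ne_zero 2 hd.ne'),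
      ArithmeticFunction.cardFactors_pow, pow_mul, neg_one_sq, one_pow, one_mul]
  simp only [e]
  have h1 : m / q + h / q ≤ (m + h) / q := Nat.div_add_div_le_add_div
  have h2 : (m + h) / q ≤ m / q + h / q + 1 := by
    rw [Nat.add_div hq0]
    split_ifs <;> omega
  rw [← sum_Ioc_consecutive _ (Nat.le_add_right _ _) h1]
  refine (abs_add_le _ _).trans (add_le_add (le_of_eq (by simp [dev])) ?_)
  refine (abs_sum_le_sum_abs _ _).trans ((sum_le_card_nsmul _ _ 1 fun n _ => ?_).trans ?_)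
  · rw [← Int.cast_abs]
    exact_mod_cast DavenportMoebius.abs_liouville_le n
  · rw [nsmul_one, Nat.card_Ioc, Nat.cast_le_one]
    omega

theorem abs_card_multiples_sub_le {q : ℕ} (hq : 0 < q) (m h : ℕ) :
    |(((Ioc m (m + h)).filter (q ∣ ·)).card : ℝ) - (h : ℝ) / q| ≤ 1 := by
  have hq0 : (0 : ℝ) < q := Nat.cast_pos.2 hq
  have e : ((Ioc m (m + h)).filter (q ∣ ·)).card = (m + h) / q - m / q := by
    rw [card_eq_sum_ones, sum_multiples hq, ← card_eq_sum_ones, Nat.card_Ioc]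
  have h0 : m / q ≤ (m + h) / q := Nat.div_le_div_right (Nat.le_add_right m h)
  have a1 : ((((m + h) / q : ℕ)) : ℝ) * q ≤ m + h := by
    exact_mod_cast Nat.div_mul_le_self (m + h) q
  have a2 : ((m / q : ℕ) : ℝ) * q ≤ m := by exact_mod_cast Nat.div_mul_le_self m q
  have a3 : (m : ℝ) + h < (((m + h) / q : ℕ) : ℝ) * q + q := by
    exact_mod_cast Nat.lt_div_mul_add hq
  have a4 : (m : ℝ) < ((m / q : ℕ) : ℝ) * q + q := by exact_mod_cast Nat.lt_div_mul_add hq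
  rw [e, Nat.cast_sub h0, abs_le, neg_le_sub_iff_le_add, sub_le_iff_le_add]
  constructor <;> [rw [div_le_iff₀ hq0]; rw [← sub_le_iff_le_add', le_div_iff₀ hq0]] <;>
    linarith

/-- On average a window has `O (h / q)` multiples of `q`. -/
theorem sum_card_multiples_le {X h q : ℕ} (hh : h ≤ X) :
    ∑ m ∈ Ioc X (2 * X), (((Ioc m (m + h)).filter (q ∣ ·)).card : ℝ) ≤
      (h : ℝ) * (3 * X) * ((q : ℝ))⁻¹ := by
  have e : ∀ m, ((Ioc m (m + h)).filter (q ∣ ·)).card =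
      ∑ j ∈ Icc 1 h, if q ∣ m + j then 1 else 0 := fun m => by
    rw [card_eq_sum_ones, sum_filter]
    refine sum_nbij' (· - m) (m + ·) (fun n hn => ?_) (fun j hj => ?_) (fun n hn => ?_)
      (fun j _ => ?_) (fun n hn => ?_) <;> simp only [mem_Ioc, mem_Icc] at *
    · omega
    · omega
    · omega
    · omega
    · rw [Nat.add_sub_cancel' (by omega)]
  have hnat : ∑ m ∈ Ioc X (2 * X), ((Ioc m (m + h)).filter (q ∣ ·)).card ≤ h * (3 * X / q) := by
    simp only [e]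
    rw [sum_comm]
    refine (sum_le_card_nsmul _ _ (3 * X / q) fun j hj => ?_).trans ?_
    · rw [← sum_filter, ← card_eq_sum_ones, ← Nat.Ioc_filter_dvd_card_eq_div (3 * X) q]
      refine card_le_card_of_injOn (· + j) (fun m hm => ?_) fun a _ b _ hab =>
        Nat.add_right_cancel hab
      simp only [coe_filter, mem_Ioc, mem_Icc, Set.mem_ofPred_eq] at hm hj ⊢
      exact ⟨⟨by omega, by omega⟩, hm.2⟩
    · simp
  refine le_trans (le_of_eq (Nat.cast_sum _ _).symm) ((Nat.cast_le.2 hnat).trans ?_)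
  push_cast
  rw [mul_assoc]
  refine mul_le_mul_of_nonneg_left (Nat.cast_div_le.trans (le_of_eq ?_)) (Nat.cast_nonneg h)
  push_cast
  rw [div_eq_mul_inv]

/-- The large squares. -/
theorem sum_tail_le {X h D : ℕ} (hD : 0 < D) (hh : h ≤ X) :
    ∑ m ∈ Ioc X (2 * X), ∑ d ∈ Ioc D (3 * X),
      (((Ioc m (m + h)).filter (d ^ 2 ∣ ·)).card : ℝ) ≤ 3 * (h : ℝ) * X / D := by
  rw [sum_comm]
  refine (sum_le_sum fun d _ => sum_card_multiples_le hh).trans ?_
  rw [← mul_sum, div_eq_mul_inv, show (h : ℝ) * (3 * X) = 3 * h * X by ring]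
  refine mul_le_mul_of_nonneg_left ?_ (by positivity)
  rcases le_or_gt D (3 * X) with h1 | h1
  · refine le_trans (le_of_eq ?_) ((sum_Ioc_inv_sq_le_sub (α := ℝ) hD.ne' h1).trans
      (sub_le_self _ (by positivity)))
    push_cast
    rfl
  · rw [Ioc_eq_empty (by omega), sum_empty]
    positivity

/-- The small squares, by the law of `λ`. -/
theorem sum_abs_dev_div_le {X h q H₀ X₀ : ℕ} {η : ℝ} (hη : 0 < η) (hq : 0 < q)
    (hlaw : ∀ X h : ℕ, X₀ ≤ X → H₀ ≤ h → h ≤ X →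
      ∑ m ∈ Ioc X (2 * X), dev (fun n => (ArithmeticFunction.liouville n : ℝ)) 0 h m ^ 2 ≤
        η ^ 2 * X * (h : ℝ) ^ 2)
    (hX : X₀ ≤ X / q) (hh : H₀ ≤ h / q) (hhX : h ≤ X) :
    ∑ m ∈ Ioc X (2 * X),
      |dev (fun n => (ArithmeticFunction.liouville n : ℝ)) 0 (h / q) (m / q)| ≤
        η * X * h + 4 * h := by
  obtain ⟨G, hG⟩ : ∃ G : ℕ → ℝ, G = fun k =>
      |dev (fun n => (ArithmeticFunction.liouville n : ℝ)) 0 (h / q) k| := ⟨_, rfl⟩
  obtain ⟨Y, hY⟩ : ∃ Y, Y = X / q := ⟨_, rfl⟩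
  obtain ⟨l, hl⟩ : ∃ l, l = h / q := ⟨_, rfl⟩
  rw [← hY] at hX
  rw [← hl] at hh
  have hf : ∀ n, |(ArithmeticFunction.liouville n : ℝ)| ≤ 1 := fun n => by
    rw [← Int.cast_abs]
    exact_mod_cast DavenportMoebius.abs_liouville_le n
  have hG0 : ∀ k, 0 ≤ G k := fun k => hG ▸ abs_nonneg _
  have hGl : ∀ k, G k ≤ 2 * l := fun k => by
    rw [hG, hl]
    exact abs_dev_le hf (by norm_num) _ k
  have hlaw' := hlaw Y l hX hh (hl ▸ hY ▸ Nat.div_le_div_right hhX)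
  have hdy : ∑ k ∈ Ioc Y (2 * Y), G k ≤ η * Y * l := by
    rcases Nat.eq_zero_or_pos l with h0 | h0
    · exact (sum_nonpos fun k _ => (hGl k).trans (by simp [h0])).trans (by positivity)
    refine le_of_mul_le_mul_left ?_ (show (0 : ℝ) < 2 * η * l by positivity)
    rw [mul_sum]
    calc ∑ k ∈ Ioc Y (2 * Y), 2 * η * l * G k
        ≤ ∑ k ∈ Ioc Y (2 * Y), (G k ^ 2 + (η * l) ^ 2) :=
          sum_le_sum fun k _ => by nlinarith [sq_nonneg (G k - η * l)]
      _ ≤ η ^ 2 * Y * (l : ℝ) ^ 2 + Y * (η * l) ^ 2 := by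
          rw [sum_add_distrib, sum_const, Nat.card_Ioc, nsmul_eq_mul,
            show 2 * Y - Y = Y by omega]
          refine add_le_add (le_of_eq_of_le ?_ hlaw') le_rfl
          simp only [hG, hl, sq_abs]
      _ = _ := by ring
  have hmaps : ∀ m ∈ Ioc X (2 * X), m / q ∈ insert Y (insert (2 * Y + 1) (Ioc Y (2 * Y))) := by
    intro m hm
    obtain ⟨h1, h2⟩ := mem_Ioc.1 hm
    have a1 : X / q ≤ m / q := Nat.div_le_div_right h1.le
    have a2 : m / q ≤ 2 * X / q := Nat.div_le_div_right h2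
    have a3 : 2 * X / q ≤ 2 * (X / q) + 1 := by
      rw [two_mul, Nat.add_div hq]
      split_ifs <;> omega
    simp only [mem_insert, mem_Ioc, hY]
    omega
  have hfib : ∀ k, (((Ioc X (2 * X)).filter fun m => m / q = k).card : ℝ) ≤ q := fun k => by
    refine Nat.cast_le.2 ((card_le_card (t := Ico (k * q) (k * q + q)) fun m hm => ?_).trans ?_)
    · obtain ⟨-, hm⟩ := mem_filter.1 hm
      rw [mem_Ico, ← hm]
      exact ⟨Nat.div_mul_le_self m q, Nat.lt_div_mul_add hq⟩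
    · simp
  change ∑ m ∈ Ioc X (2 * X), |dev _ 0 (h / q) (m / q)| ≤ _
  rw [show ∑ m ∈ Ioc X (2 * X),
      |dev (fun n => (ArithmeticFunction.liouville n : ℝ)) 0 (h / q) (m / q)| =
      ∑ m ∈ Ioc X (2 * X), G (m / q) by rw [hG], ← sum_fiberwise_of_maps_to hmaps]
  calc ∑ k ∈ insert Y (insert (2 * Y + 1) (Ioc Y (2 * Y))),
        ∑ m ∈ (Ioc X (2 * X)).filter (fun m => m / q = k), G (m / q)
      ≤ ∑ k ∈ insert Y (insert (2 * Y + 1) (Ioc Y (2 * Y))), (q : ℝ) * G k := by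
        refine sum_le_sum fun k _ => ?_
        rw [sum_congr rfl fun m hm => by rw [(mem_filter.1 hm).2], sum_const, nsmul_eq_mul]
        exact mul_le_mul_of_nonneg_right (hfib k) (hG0 k)
    _ ≤ q * (η * Y * l + 4 * l) := by
        rw [← mul_sum, sum_insert (by simp only [mem_insert, mem_Ioc]; omega),
          sum_insert (by simp only [mem_Ioc]; omega)]
        refine mul_le_mul_of_nonneg_left ?_ (Nat.cast_nonneg q)
        linarith [hGl Y, hGl (2 * Y + 1)]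
    _ ≤ _ := by
        have hYX : (Y : ℝ) * q ≤ X := by exact_mod_cast hY ▸ Nat.div_mul_le_self X q
        have hlh : (l : ℝ) * q ≤ h := by exact_mod_cast hl ▸ Nat.div_mul_le_self h q
        have hlh' : (l : ℝ) ≤ h := Nat.cast_le.2 (hl ▸ Nat.div_le_self h q)
        have := mul_le_mul hYX hlh' (Nat.cast_nonneg l) (Nat.cast_nonneg X)
        have := mul_le_mul_of_nonneg_left this hη.le
        linarith

theorem dev_eq_sum {f : ℕ → ℝ} {ρ : ℝ} {X h m : ℕ} (hm : m ∈ Ioc X (2 * X)) (hh : h ≤ X)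
    (g : ℕ → ℝ) (hfg : ∀ n, f n = g n * sqfree n) :
    dev f ρ h m = ∑ d ∈ Icc 1 (3 * X),
      (μ d : ℝ) * ∑ n ∈ (Ioc m (m + h)).filter (d ^ 2 ∣ ·), g n - ρ * h := by
  have hmX := mem_Ioc.1 hm
  rw [dev]
  congr 1
  calc ∑ n ∈ Ioc m (m + h), f n
      = ∑ n ∈ Ioc m (m + h), ∑ d ∈ Icc 1 (3 * X),
          if d ^ 2 ∣ n then (μ d : ℝ) * g n else 0 := by
        refine sum_congr rfl fun n hn => ?_
        have hn' := mem_Ioc.1 hn
        rw [hfg, sqfree_eq_sum (M := 3 * X) (by omega) (by omega), mul_sum]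
        refine sum_congr rfl fun d _ => ?_
        split_ifs <;> ring
    _ = _ := by
        rw [sum_comm]
        refine sum_congr rfl fun d _ => ?_
        rw [← sum_filter, mul_sum]

theorem abs_tail_le {g : ℕ → ℝ} (hg : ∀ n, |g n| ≤ 1) (D M h m : ℕ) :
    |∑ d ∈ Ioc D M, (μ d : ℝ) * ∑ n ∈ (Ioc m (m + h)).filter (d ^ 2 ∣ ·), g n| ≤
      ∑ d ∈ Ioc D M, (((Ioc m (m + h)).filter (d ^ 2 ∣ ·)).card : ℝ) := by
  refine (abs_sum_le_sum_abs _ _).trans (sum_le_sum fun d _ => ?_)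
  rw [abs_mul]
  refine (mul_le_of_le_one_left (abs_nonneg _) (abs_moebius_le d)).trans
    ((abs_sum_le_sum_abs _ _).trans ((sum_le_card_nsmul _ _ 1 fun n _ => hg n).trans ?_))
  simp

theorem sum_Icc_split {D M : ℕ} (h : D ≤ M) (F : ℕ → ℝ) :
    ∑ d ∈ Icc 1 M, F d = ∑ d ∈ Icc 1 D, F d + ∑ d ∈ Ioc D M, F d := by
  rw [show Icc 1 M = Ioc 0 M from rfl, show Icc 1 D = Ioc 0 D from rfl,
    sum_Ioc_consecutive _ (Nat.zero_le D) h]

/-- **The law of `μ`.** -/
theorem shortLaw_moebius : ShortLaw (fun n => (μ n : ℝ)) 0 := by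
  refine shortLaw_of_abs abs_moebius_le (by norm_num) fun ε hε => ?_
  obtain ⟨D, hD⟩ : ∃ D, D = ⌈12 / ε⌉₊ + 1 := ⟨_, rfl⟩
  have hD0 : (1 : ℝ) ≤ D := Nat.one_le_cast.2 (by omega)
  have hDε : 12 / ε ≤ D := (Nat.le_ceil _).trans (Nat.cast_le.2 (by omega))
  obtain ⟨η, hη⟩ : ∃ η, η = ε / (4 * D) := ⟨_, rfl⟩
  have hη0 : 0 < η := hη ▸ by positivity
  obtain ⟨H₀, X₀, hlaw⟩ := shortLaw_liouville (η ^ 2) (by positivity)
  refine ⟨(H₀ + X₀ + 1) * D ^ 2 + ⌈16 * (D : ℝ) / ε⌉₊, (X₀ + 1) * D ^ 2 + D + ⌈16 * (D : ℝ) / ε⌉₊,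
    fun X h hX hh hhX => ?_⟩
  have hhε : 16 * (D : ℝ) / ε ≤ h := (Nat.le_ceil _).trans (Nat.cast_le.2 (by omega))
  have hXε : 16 * (D : ℝ) / ε ≤ X := (Nat.le_ceil _).trans (Nat.cast_le.2 (by omega))
  obtain ⟨W, hW⟩ : ∃ W : ℕ → ℕ → ℝ, W = fun d m =>
      |dev (fun n => (ArithmeticFunction.liouville n : ℝ)) 0 (h / d ^ 2) (m / d ^ 2)| + 1 :=
    ⟨_, rfl⟩
  have hpt : ∀ m ∈ Ioc X (2 * X), |dev (fun n => (μ n : ℝ)) 0 h m| ≤ ∑ d ∈ Icc 1 D, W d m +
      ∑ d ∈ Ioc D (3 * X), (((Ioc m (m + h)).filter (d ^ 2 ∣ ·)).card : ℝ) := fun m hm => by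
    rw [dev_eq_sum hm hhX (fun n => (ArithmeticFunction.liouville n : ℝ))
      moebius_eq_liouville_mul, zero_mul, sub_zero, sum_Icc_split (show D ≤ 3 * X by omega)]
    refine (abs_add_le _ _).trans (add_le_add ((abs_sum_le_sum_abs _ _).trans
      (sum_le_sum fun d hd => ?_)) (abs_tail_le (fun n => ?_) D (3 * X) h m))
    · rw [abs_mul, hW]
      exact (mul_le_of_le_one_left (abs_nonneg _) (abs_moebius_le d)).trans
        (sum_square_multiples_le (mem_Icc.1 hd).1 m)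
    · rw [← Int.cast_abs]
      exact_mod_cast DavenportMoebius.abs_liouville_le n
  have hsmall : ∀ d ∈ Icc 1 D, ∑ m ∈ Ioc X (2 * X), W d m ≤ η * X * h + 4 * h + X := fun d hd => by
    obtain ⟨hd1, hd2⟩ := mem_Icc.1 hd
    have hq : 0 < d ^ 2 := pow_pos hd1 2
    have hqD : d ^ 2 ≤ D ^ 2 := Nat.pow_le_pow_left hd2 2
    rw [hW, sum_add_distrib]
    refine add_le_add (sum_abs_dev_div_le hη0 hq hlaw ?_ ?_ hhX) (le_of_eq ?_)
    · rw [Nat.le_div_iff_mul_le hq]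
      exact ((Nat.mul_le_mul (show X₀ ≤ X₀ + 1 by omega) hqD).trans (by omega)).trans hX
    · rw [Nat.le_div_iff_mul_le hq]
      exact ((Nat.mul_le_mul (show H₀ ≤ H₀ + X₀ + 1 by omega) hqD).trans (by omega)).trans hh
    · rw [sum_const, Nat.card_Ioc, nsmul_one]
      congr 1
      omega
  refine (sum_le_sum hpt).trans ?_
  rw [sum_add_distrib, sum_comm]
  refine (add_le_add (sum_le_card_nsmul _ _ _ hsmall) (sum_tail_le (by omega) hhX)).trans ?_
  rw [Nat.card_Icc, Nat.add_sub_cancel, nsmul_eq_mul]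
  have t1 : (D : ℝ) * (η * X * h) = ε / 4 * (X * h) := by
    rw [hη]
    field_simp
  have t2 : 3 * (h : ℝ) * X / D ≤ ε / 4 * (X * h) := by
    rw [div_le_iff₀ (by linarith)]
    rw [div_le_iff₀ hε] at hDε
    have := mul_le_mul_of_nonneg_right hDε (show 0 ≤ (X : ℝ) * h by positivity)
    linarith
  rw [div_le_iff₀ hε] at hhε hXε
  have t3 := mul_le_mul_of_nonneg_right hXε (Nat.cast_nonneg h)
  have t4 := mul_le_mul_of_nonneg_right hhε (Nat.cast_nonneg X)
  rw [mul_add, mul_add, t1]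
  linarith [show 0 ≤ ε * ((X : ℝ) * h) by positivity]

theorem zetaNat_two : MinkowskiHlawka.zetaNat 2 = Real.pi ^ 2 / 6 := hasSum_zeta_two.tsum_eq

/-- The partial sums of `∑ μ d / d ^ 2`. -/
theorem abs_density_sub_le {D : ℕ} (hD : 0 < D) :
    |6 / Real.pi ^ 2 - ∑ d ∈ Icc 1 D, (μ d : ℝ) / (d : ℝ) ^ 2| ≤ (1 : ℝ) / D := by
  have hs : Summable fun d : ℕ => (μ d : ℝ) / (d : ℝ) ^ 2 := by
    refine Summable.of_norm_bounded (Real.summable_one_div_nat_pow.2 one_lt_two) fun d => ?_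
    rw [Real.norm_eq_abs, abs_div, abs_of_nonneg (sq_nonneg (d : ℝ))]
    exact div_le_div_of_nonneg_right (abs_moebius_le d) (sq_nonneg _)
  have hlim := hs.hasSum
  rw [MinkowskiHlawka.tsum_moebius_div_pow one_lt_two, zetaNat_two, inv_div] at hlim
  have hlim' : Tendsto (fun N : ℕ => ∑ d ∈ Icc 1 N, (μ d : ℝ) / (d : ℝ) ^ 2) atTop
      (𝓝 (6 / Real.pi ^ 2)) := by
    refine ((tendsto_add_atTop_iff_nat 1).2 hlim.tendsto_sum_nat).congr fun N => ?_
    rw [range_eq_Ico, sum_eq_sum_Ico_succ_bot (by omega)]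
    simp only [CharP.cast_eq_zero, ne_eq, OfNat.ofNat_ne_zero, not_false_eq_true, zero_pow,
      div_zero, zero_add]
    rfl
  refine le_of_tendsto' (x := (atTop : Filter ℕ)) (f := fun N : ℕ =>
    |∑ d ∈ Icc 1 (D + N), (μ d : ℝ) / (d : ℝ) ^ 2 - ∑ d ∈ Icc 1 D, (μ d : ℝ) / (d : ℝ) ^ 2|)
    ?_ fun N => ?_
  · exact ((hlim'.comp (tendsto_atTop_mono (fun N => Nat.le_add_left N D) tendsto_id)).sub_const
      _).abs
  · rw [sum_Icc_split (Nat.le_add_right D N), add_sub_cancel_left, one_div]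
    refine (abs_sum_le_sum_abs _ _).trans ((sum_le_sum fun d _ => ?_).trans
      ((sum_Ioc_inv_sq_le_sub hD.ne' (Nat.le_add_right D N)).trans
        (sub_le_self _ (by positivity))))
    rw [abs_div, abs_of_nonneg (sq_nonneg (d : ℝ)), ← one_div]
    exact div_le_div_of_nonneg_right (abs_moebius_le d) (sq_nonneg _)

theorem density_le_one : |6 / Real.pi ^ 2| ≤ 1 := by
  have := Real.pi_gt_three
  rw [abs_of_nonneg (by positivity), div_le_one (by positivity)]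
  nlinarith

/-- **The law of squarefree numbers.** -/
theorem shortLaw_sqfree : ShortLaw sqfree (6 / Real.pi ^ 2) := by
  refine shortLaw_of_abs abs_sqfree_le density_le_one fun ε hε => ?_
  obtain ⟨D, hD⟩ : ∃ D, D = ⌈8 / ε⌉₊ + 1 := ⟨_, rfl⟩
  have hD0 : (1 : ℝ) ≤ D := Nat.one_le_cast.2 (by omega)
  have hDε : 8 / ε ≤ D := (Nat.le_ceil _).trans (Nat.cast_le.2 (by omega))
  refine ⟨⌈2 * (D : ℝ) / ε⌉₊, D, fun X h hX hh hhX => ?_⟩
  have hhε : 2 * (D : ℝ) / ε ≤ h := (Nat.le_ceil _).trans (Nat.cast_le.2 hh)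
  have hpt : ∀ m ∈ Ioc X (2 * X), |dev sqfree (6 / Real.pi ^ 2) h m| ≤ (D : ℝ) + h / D +
      ∑ d ∈ Ioc D (3 * X), (((Ioc m (m + h)).filter (d ^ 2 ∣ ·)).card : ℝ) := fun m hm => by
    rw [dev_eq_sum hm hhX (fun _ => 1) (fun n => (one_mul _).symm),
      sum_Icc_split (show D ≤ 3 * X by omega), add_sub_right_comm]
    refine (abs_add_le _ _).trans (add_le_add ?_
      (abs_tail_le (fun _ => by simp) D (3 * X) h m))
    have e : (6 / Real.pi ^ 2) * h = (6 / Real.pi ^ 2 - ∑ d ∈ Icc 1 D, (μ d : ℝ) / (d : ℝ) ^ 2) *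
        h + ∑ d ∈ Icc 1 D, (μ d : ℝ) * ((h : ℝ) / ((d ^ 2 : ℕ) : ℝ)) := by
      rw [sub_mul, sum_mul]
      push_cast
      simp only [div_mul_eq_mul_div, mul_div_assoc']
      ring
    rw [e, sub_add_eq_sub_sub_swap, ← sum_sub_distrib]
    refine (abs_sub _ _).trans (add_le_add ((abs_sum_le_sum_abs _ _).trans
      ((sum_le_card_nsmul _ _ 1 fun d hd => ?_).trans (by simp))) ?_)
    · rw [← mul_sub, abs_mul, sum_const, nsmul_one]
      exact mul_le_one₀ (abs_moebius_le d) (abs_nonneg _)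
        (abs_card_multiples_sub_le (pow_pos (mem_Icc.1 hd).1 2) m h)
    · rw [abs_mul, Nat.abs_cast, div_eq_mul_one_div (h : ℝ), mul_comm (h : ℝ) (1 / _)]
      exact mul_le_mul_of_nonneg_right (abs_density_sub_le (by omega)) (Nat.cast_nonneg h)
  refine (sum_le_sum hpt).trans ?_
  rw [sum_add_distrib, sum_const, Nat.card_Ioc, nsmul_eq_mul, show 2 * X - X = X by omega]
  refine (add_le_add le_rfl (sum_tail_le (by omega) hhX)).trans ?_
  have t2 : (X : ℝ) * ((h : ℝ) / D) + 3 * (h : ℝ) * X / D ≤ ε / 2 * (X * h) := by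
    rw [show (X : ℝ) * ((h : ℝ) / D) + 3 * (h : ℝ) * X / D = 4 * (X * h) / D by ring,
      div_le_iff₀ (by linarith)]
    rw [div_le_iff₀ hε] at hDε
    have := mul_le_mul_of_nonneg_right hDε (show 0 ≤ (X : ℝ) * h by positivity)
    linarith
  rw [div_le_iff₀ hε] at hhε
  have t4 := mul_le_mul_of_nonneg_right hhε (Nat.cast_nonneg X)
  linarith

end FA.ShortMoebius

end
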