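import Fermat.Agent.ShortLiouville.Main

/-!
# Laws in short intervals

`ShortLaw f ρ`: the sums of `f` over intervals of length `h` are `ρ h + o (h)` in mean square over
their starting points, as soon as `h → ∞`. General consequences, and the law of `λ`.
-/

set_option autoImplicit false

noncomputable section

namespace FA.ShortMoebius

open MeasureTheory Finset Filter
open scoped Topology

/-- `∑_{m < n ≤ m + h} f n - ρ h`. -/
def dev (f : ℕ → ℝ) (ρ : ℝ) (h m : ℕ) : ℝ := ∑ n ∈ Ioc m (m + h), f n - ρ * h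

/-- `f` has mean `ρ` in almost all short intervals, in mean square and uniformly in the length. -/
def ShortLaw (f : ℕ → ℝ) (ρ : ℝ) : Prop :=
  ∀ ε : ℝ, 0 < ε → ∃ H₀ X₀ : ℕ, ∀ X h : ℕ, X₀ ≤ X → H₀ ≤ h → h ≤ X →
    ∑ m ∈ Ioc X (2 * X), dev f ρ h m ^ 2 ≤ ε * X * (h : ℝ) ^ 2

/-- The law of `λ`. -/
theorem shortLaw_liouville :
    ShortLaw (fun n => (ArithmeticFunction.liouville n : ℝ)) 0 := by
  intro ε hε
  obtain ⟨H₀, X₀, h⟩ := ShortLiouville.exists_short_interval_le hε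
  refine ⟨H₀, X₀, fun X k hX hk hkX => ?_⟩
  simpa [dev] using h X k hX hk hkX

theorem abs_dev_le {f : ℕ → ℝ} {ρ : ℝ} (hf : ∀ n, |f n| ≤ 1) (hρ : |ρ| ≤ 1) (h m : ℕ) :
    |dev f ρ h m| ≤ 2 * h := by
  have h1 : |∑ n ∈ Ioc m (m + h), f n| ≤ h := by
    refine (abs_sum_le_sum_abs _ _).trans ((sum_le_card_nsmul _ _ 1 fun n _ => hf n).trans ?_)
    simp
  have h2 : |ρ * h| ≤ h := by
    rw [abs_mul, Nat.abs_cast]
    exact mul_le_of_le_one_left (Nat.cast_nonneg h) hρ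
  exact (abs_sub _ _).trans (by linarith)

/-- The mean of the absolute value suffices. -/
theorem shortLaw_of_abs {f : ℕ → ℝ} {ρ : ℝ} (hf : ∀ n, |f n| ≤ 1) (hρ : |ρ| ≤ 1)
    (H : ∀ ε : ℝ, 0 < ε → ∃ H₀ X₀ : ℕ, ∀ X h : ℕ, X₀ ≤ X → H₀ ≤ h → h ≤ X →
      ∑ m ∈ Ioc X (2 * X), |dev f ρ h m| ≤ ε * X * h) : ShortLaw f ρ := by
  intro ε hε
  obtain ⟨H₀, X₀, hH⟩ := H (ε / 2) (by positivity)
  refine ⟨H₀, X₀, fun X h hX hh hhX => ?_⟩
  calc ∑ m ∈ Ioc X (2 * X), dev f ρ h m ^ 2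
      ≤ ∑ m ∈ Ioc X (2 * X), 2 * h * |dev f ρ h m| := by
        refine sum_le_sum fun m _ => ?_
        rw [← sq_abs, sq]
        exact mul_le_mul_of_nonneg_right (abs_dev_le hf hρ h m) (abs_nonneg _)
    _ ≤ 2 * h * (ε / 2 * X * h) := by
        rw [← mul_sum]
        exact mul_le_mul_of_nonneg_left (hH X h hX hh hhX) (by positivity)
    _ = _ := by ring

/-- Combinations of laws. -/
theorem ShortLaw.combine {f g : ℕ → ℝ} {ρ σ a b : ℝ} (hf : ShortLaw f ρ) (hg : ShortLaw g σ)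
    (ha : |a| ≤ 1) (hb : |b| ≤ 1) :
    ShortLaw (fun n => a * f n + b * g n) (a * ρ + b * σ) := by
  intro ε hε
  obtain ⟨H₁, X₁, h1⟩ := hf (ε / 4) (by positivity)
  obtain ⟨H₂, X₂, h2⟩ := hg (ε / 4) (by positivity)
  refine ⟨max H₁ H₂, max X₁ X₂, fun X h hX hh hhX => ?_⟩
  have k1 := h1 X h (le_of_max_le_left hX) (le_of_max_le_left hh) hhX
  have k2 := h2 X h (le_of_max_le_right hX) (le_of_max_le_right hh) hhX
  have hpt : ∀ m, dev (fun n => a * f n + b * g n) (a * ρ + b * σ) h m ^ 2 ≤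
      2 * dev f ρ h m ^ 2 + 2 * dev g σ h m ^ 2 := fun m => by
    have e : dev (fun n => a * f n + b * g n) (a * ρ + b * σ) h m =
        a * dev f ρ h m + b * dev g σ h m := by
      simp only [dev, sum_add_distrib, ← mul_sum]
      ring
    rw [e]
    have ha2 : a ^ 2 ≤ 1 := by nlinarith [abs_le.1 ha]
    have hb2 : b ^ 2 ≤ 1 := by nlinarith [abs_le.1 hb]
    generalize dev f ρ h m = u
    generalize dev g σ h m = v
    nlinarith [sq_nonneg (a * u - b * v), mul_le_mul_of_nonneg_right ha2 (sq_nonneg u),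
      mul_le_mul_of_nonneg_right hb2 (sq_nonneg v)]
  refine (sum_le_sum fun m _ => hpt m).trans ?_
  rw [sum_add_distrib, ← mul_sum, ← mul_sum]
  linarith [show 0 ≤ ε * X * (h : ℝ) ^ 2 by positivity]

/-- **Almost all short intervals.** -/
theorem ShortLaw.biased {f : ℕ → ℝ} {ρ δ ε : ℝ} (hf : ShortLaw f ρ) (hδ : 0 < δ) (hε : 0 < ε) :
    ∃ H₀ X₀ : ℕ, ∀ X h : ℕ, X₀ ≤ X → H₀ ≤ h → h ≤ X →
      (((Ioc X (2 * X)).filter fun m => δ * (h : ℝ) < |dev f ρ h m|).card : ℝ) ≤ ε * X := by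
  obtain ⟨H₀, X₀, hmain⟩ := hf (ε * δ ^ 2) (by positivity)
  refine ⟨max H₀ 1, X₀, fun X h hX hh hhX => ?_⟩
  have h0 := hmain X h hX (le_of_max_le_left hh) hhX
  obtain ⟨S, hS⟩ : ∃ S, S = (Ioc X (2 * X)).filter fun m => δ * (h : ℝ) < |dev f ρ h m| := ⟨_, rfl⟩
  rw [← hS]
  have hpos : 0 < (δ * (h : ℝ)) ^ 2 := by
    have : 1 ≤ h := le_of_max_le_right hh
    positivity
  refine le_of_mul_le_mul_right ?_ hpos
  calc (S.card : ℝ) * (δ * (h : ℝ)) ^ 2 ≤ ∑ m ∈ S, dev f ρ h m ^ 2 := by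
        rw [← nsmul_eq_mul]
        refine card_nsmul_le_sum _ _ _ fun m hm => ?_
        rw [hS, mem_filter] at hm
        exact sq_le_sq.2 (by rw [abs_of_nonneg (by positivity)]; exact hm.2.le)
    _ ≤ _ := (sum_le_sum_of_subset_of_nonneg (hS ▸ filter_subset _ _)
        fun m _ _ => sq_nonneg _).trans h0
    _ = _ := by ring

/-- The density form, for any length tending to infinity. -/
theorem ShortLaw.density {f : ℕ → ℝ} {ρ δ : ℝ} (hf : ShortLaw f ρ) (hδ : 0 < δ) {ψ : ℕ → ℕ}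
    (hψ : Tendsto ψ atTop atTop) (hψX : ∀ᶠ X in atTop, ψ X ≤ X) :
    Tendsto (fun X : ℕ => (((Ioc X (2 * X)).filter fun m =>
      δ * (ψ X : ℝ) < |dev f ρ (ψ X) m|).card : ℝ) / X) atTop (𝓝 0) := by
  rw [Metric.tendsto_nhds]
  intro ε hε
  obtain ⟨H₀, X₀, h⟩ := hf.biased hδ (show 0 < ε / 2 by positivity)
  filter_upwards [hψ.eventually_ge_atTop H₀, hψX, eventually_ge_atTop (max X₀ 1)] with X h1 h2 h3
  have hX0 : (0 : ℝ) < X := Nat.cast_pos.2 (le_of_max_le_right h3)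
  rw [Real.dist_0_eq_abs, abs_of_nonneg (by positivity), div_lt_iff₀ hX0]
  exact (h X (ψ X) (le_of_max_le_left h3) h1 h2).trans_lt
    (mul_lt_mul_of_pos_right (by linarith) hX0)

/-- The deviation at a real point and of a real length. -/
theorem realDev_sq_le {f : ℕ → ℝ} {ρ : ℝ} (hf : ∀ n, |f n| ≤ 1) (hρ : |ρ| ≤ 1) {h x : ℝ}
    (hh : 0 ≤ h) (hx : 0 ≤ x) :
    (∑ n ∈ Ioc ⌊x⌋₊ ⌊x + h⌋₊, f n - ρ * h) ^ 2 ≤ 2 * dev f ρ ⌊h⌋₊ ⌊x⌋₊ ^ 2 + 8 := by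
  have h1 : ⌊x⌋₊ + ⌊h⌋₊ ≤ ⌊x + h⌋₊ :=
    Nat.le_floor (by push_cast; linarith [Nat.floor_le hx, Nat.floor_le hh])
  have h2 : ⌊x + h⌋₊ ≤ ⌊x⌋₊ + ⌊h⌋₊ + 1 := by
    refine Nat.lt_succ_iff.1 ((Nat.floor_lt (by linarith)).2 ?_)
    push_cast
    linarith [Nat.lt_floor_add_one x, Nat.lt_floor_add_one h]
  obtain ⟨A, hA⟩ : ∃ A : ℝ,
      A = ∑ n ∈ Ioc (⌊x⌋₊ + ⌊h⌋₊) ⌊x + h⌋₊, f n - ρ * (h - (⌊h⌋₊ : ℝ)) := ⟨_, rfl⟩
  have e : ∑ n ∈ Ioc ⌊x⌋₊ ⌊x + h⌋₊, f n - ρ * h = dev f ρ ⌊h⌋₊ ⌊x⌋₊ + A := by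
    rw [hA, dev, ← sum_Ioc_consecutive _ (Nat.le_add_right _ _) h1]
    ring
  have hA2 : |A| ≤ 2 := by
    have k1 : |∑ n ∈ Ioc (⌊x⌋₊ + ⌊h⌋₊) ⌊x + h⌋₊, f n| ≤ 1 := by
      refine (abs_sum_le_sum_abs _ _).trans ((sum_le_card_nsmul _ _ 1 fun n _ => hf n).trans ?_)
      rw [nsmul_one, Nat.card_Ioc, Nat.cast_le_one]
      omega
    have k2 : |ρ * (h - (⌊h⌋₊ : ℝ))| ≤ 1 := by
      rw [abs_mul, abs_of_nonneg (sub_nonneg.2 (Nat.floor_le hh))]
      exact mul_le_one₀ hρ (sub_nonneg.2 (Nat.floor_le hh))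
        (by linarith [Nat.lt_floor_add_one h])
    rw [hA]
    exact (abs_sub _ _).trans (by linarith)
  rw [e]
  generalize dev f ρ ⌊h⌋₊ ⌊x⌋₊ = u
  nlinarith [sq_nonneg (u - A), abs_le.1 hA2]

/-- **A law as an integral, for real `X` and `h`.** -/
theorem ShortLaw.realAverage {f : ℕ → ℝ} {ρ : ℝ} (hlaw : ShortLaw f ρ) (hf : ∀ n, |f n| ≤ 1)
    (hρ : |ρ| ≤ 1) {ε : ℝ} (hε : 0 < ε) : ∃ H₀ X₀ : ℝ, ∀ X h : ℝ,
    X₀ ≤ X → H₀ ≤ h → h ≤ X →
      ∫ x in X..2 * X, ((∑ n ∈ Ioc ⌊x⌋₊ ⌊x + h⌋₊, f n) / h - ρ) ^ 2 ≤ ε * X := by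
  obtain ⟨H₀, X₀, hmain⟩ := hlaw (ε / 8) (by positivity)
  refine ⟨H₀ + 1 + 32 / ε, X₀ + 1 + 256 / ε, fun X h hX hh hhX => ?_⟩
  have h8 : 0 ≤ 32 / ε := by positivity
  have h64 : 0 ≤ 256 / ε := by positivity
  have hH0 : (0 : ℝ) ≤ H₀ := Nat.cast_nonneg _
  have hX00 : (0 : ℝ) ≤ X₀ := Nat.cast_nonneg _
  have hh1 : 1 ≤ h := by linarith
  have hX1 : 1 ≤ X := by linarith
  have hh0 : h ≠ 0 := by linarith
  have e : ∀ x : ℝ, ((∑ n ∈ Ioc ⌊x⌋₊ ⌊x + h⌋₊, f n) / h - ρ) ^ 2 =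
      (∑ n ∈ Ioc ⌊x⌋₊ ⌊x + h⌋₊, f n - ρ * h) ^ 2 / h ^ 2 := fun x => by
    field_simp
  simp only [e]
  rw [intervalIntegral.integral_div, div_le_iff₀ (by positivity)]
  obtain ⟨N, hN⟩ : ∃ N, N = ⌊X⌋₊ := ⟨_, rfl⟩
  obtain ⟨l, hl⟩ : ∃ l, l = ⌊h⌋₊ := ⟨_, rfl⟩
  obtain ⟨G, hG⟩ : ∃ G : ℕ → ℝ, G = fun m => dev f ρ l m ^ 2 := ⟨_, rfl⟩
  have hG0 : ∀ m, 0 ≤ G m := fun m => hG ▸ sq_nonneg _
  have hlh : (l : ℝ) ≤ h := hl ▸ Nat.floor_le (by linarith)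
  have hGh : ∀ m, G m ≤ 4 * h ^ 2 := fun m => by
    rw [hG, show 4 * h ^ 2 = (2 * h) ^ 2 by ring]
    exact sq_le_sq.2 (by
      rw [abs_of_nonneg (by positivity : 0 ≤ 2 * h)]
      exact (abs_dev_le hf hρ l m).trans (by linarith))
  have hsumG : ∑ m ∈ Ico N (2 * N + 2), G m ≤ ε / 8 * X * h ^ 2 + 8 * h ^ 2 := by
    have h1 := hmain N l (hN ▸ Nat.le_floor (by linarith)) (hl ▸ Nat.le_floor (by linarith))
      (hN ▸ hl ▸ Nat.floor_le_floor hhX)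
    rw [show Ico N (2 * N + 2) = insert N (insert (2 * N + 1) (Ioc N (2 * N))) by
      ext m; simp only [mem_Ico, mem_insert, mem_Ioc]; omega,
      sum_insert (by simp only [mem_insert, mem_Ioc]; omega),
      sum_insert (by simp only [mem_Ioc]; omega)]
    have h2 : ∑ m ∈ Ioc N (2 * N), G m ≤ ε / 8 * X * h ^ 2 := by
      rw [hG]
      refine h1.trans ?_
      gcongr
      exact hN ▸ Nat.floor_le (by linarith)
    linarith [hGh N, hGh (2 * N + 1)]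
  have hGm : Measurable fun x : ℝ => G ⌊x⌋₊ := measurable_from_nat.comp Nat.measurable_floor
  have hGi : ∀ a b : ℝ, IntervalIntegrable (fun x : ℝ => G ⌊x⌋₊) volume a b := fun a b =>
    intervalIntegrable_const (c := 4 * h ^ 2) |>.mono_fun hGm.aestronglyMeasurable
      (ae_of_all _ fun x => by
        simp only [Real.norm_eq_abs, abs_of_nonneg (hG0 _),
          abs_of_nonneg (show 0 ≤ 4 * h ^ 2 by positivity)]
        exact hGh _)
  have hNX : (N : ℝ) ≤ X := hN ▸ Nat.floor_le (by linarith)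
  have hXN : 2 * X ≤ ((2 * N + 2 : ℕ) : ℝ) := by
    push_cast
    linarith [hN ▸ Nat.lt_floor_add_one X]
  calc ∫ x in X..2 * X, (∑ n ∈ Ioc ⌊x⌋₊ ⌊x + h⌋₊, f n - ρ * h) ^ 2
      ≤ ∫ x in X..2 * X, (2 * G ⌊x⌋₊ + 8) := by
        rw [intervalIntegral.integral_of_le (by linarith),
          intervalIntegral.integral_of_le (by linarith)]
        refine integral_mono_of_nonneg (ae_of_all _ fun x => sq_nonneg _)
          (((hGi X (2 * X)).const_mul 2).add intervalIntegrable_const).1 ?_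
        refine (ae_restrict_iff' measurableSet_Ioc).2 (ae_of_all _ fun x hx => ?_)
        rw [hG, hl]
        exact realDev_sq_le hf hρ (by linarith) (by linarith [hx.1])
    _ = 2 * (∫ x in X..2 * X, G ⌊x⌋₊) + 8 * X := by
        rw [intervalIntegral.integral_add ((hGi _ _).const_mul 2) intervalIntegrable_const,
          intervalIntegral.integral_const_mul, intervalIntegral.integral_const, smul_eq_mul]
        ring
    _ ≤ 2 * (∫ x in (N : ℝ)..((2 * N + 2 : ℕ) : ℝ), G ⌊x⌋₊) + 8 * X := by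
        have := intervalIntegral.integral_mono_interval hNX (by linarith) hXN
          (ae_of_all _ fun x => hG0 ⌊x⌋₊) (hGi _ _)
        linarith
    _ = 2 * (∑ m ∈ Ico N (2 * N + 2), G m) + 8 * X := by
        rw [← intervalIntegral.sum_integral_adjacent_intervals_Ico (by omega)
          (fun m _ => hGi _ _)]
        congr 2
        refine sum_congr rfl fun m _ => ?_
        rw [intervalIntegral.integral_congr_ae (g := fun _ => G m) ?_,
          intervalIntegral.integral_const, Nat.cast_add, Nat.cast_one, add_sub_cancel_left,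
          one_smul]
        have hne : ∀ᵐ x : ℝ, x ≠ ((m + 1 : ℕ) : ℝ) := by
          rw [ae_iff]
          simp
        filter_upwards [hne] with x hx hmem
        rw [Set.uIoc_of_le (by push_cast; linarith), Set.mem_Ioc] at hmem
        push_cast at hmem hx
        rw [(Nat.floor_eq_iff (by linarith [(Nat.cast_nonneg m : (0 : ℝ) ≤ m)])).2
          ⟨hmem.1.le, lt_of_le_of_ne hmem.2 hx⟩]
    _ ≤ ε * X * h ^ 2 := by
        have hhh : h ≤ h ^ 2 := le_self_pow₀ hh1 two_ne_zero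
        have h1 : 32 ≤ ε * h := by
          rw [← div_le_iff₀' hε]
          linarith
        have h2 : 256 ≤ ε * X := by
          rw [← div_le_iff₀' hε]
          linarith
        have h3 := mul_le_mul_of_nonneg_right h2 (sq_nonneg h)
        have h4 := mul_le_mul_of_nonneg_right
          (h1.trans (mul_le_mul_of_nonneg_left hhh hε.le)) (show 0 ≤ X by linarith)
        have : 0 ≤ ε * X * h ^ 2 := by positivity
        linarith

/-- **The sums from the start**: `∑_{n ≤ X}` of the squared deviations is `o (h ^ 2 X)`. -/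
theorem ShortLaw.upTo {f : ℕ → ℝ} {ρ : ℝ} (hlaw : ShortLaw f ρ) (hf : ∀ n, |f n| ≤ 1)
    (hρ : |ρ| ≤ 1) {ε : ℝ} (hε : 0 < ε) : ∃ H₀ : ℕ, ∃ c : ℝ, 0 < c ∧ ∀ h X : ℕ,
    H₀ ≤ h → (h : ℝ) ≤ c * X →
      ∑ n ∈ Icc 1 X, dev f ρ h n ^ 2 ≤ ε * (h : ℝ) ^ 2 * X := by
  obtain ⟨H₀, X₀, hmain⟩ := hlaw (ε / 4) (by positivity)
  obtain ⟨J, hJ⟩ := exists_pow_lt_of_lt_one (show 0 < ε / 16 by positivity)
    (show (1 : ℝ) / 2 < 1 by norm_num)
  refine ⟨H₀ + X₀ + 1 + ⌈(8 * J + 1) * 4 / ε⌉₊, (1 / 2) ^ (J + 1), by positivity,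
    fun h X hh hhX => ?_⟩
  have hh1 : (1 : ℝ) ≤ h := Nat.one_le_cast.2 (by omega)
  have hsq : ∀ n, dev f ρ h n ^ 2 ≤ 4 * (h : ℝ) ^ 2 := fun n => by
    rw [show 4 * (h : ℝ) ^ 2 = (2 * (h : ℝ)) ^ 2 by ring]
    exact sq_le_sq.2 (by
      rw [abs_of_nonneg (by positivity : 0 ≤ 2 * (h : ℝ))]
      exact abs_dev_le hf hρ h n)
  have hhX' : 2 ^ (J + 1) * h ≤ X := by
    have h1 : (2 : ℝ) ^ (J + 1) * h ≤ X := by
      rw [div_pow, one_pow, div_mul_eq_mul_div, one_mul, le_div_iff₀ (by positivity)] at hhX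
      rwa [mul_comm]
    exact_mod_cast h1
  have hrec : ∀ i ≤ J, ∑ n ∈ Icc 1 X, dev f ρ h n ^ 2 ≤
      (∑ n ∈ Icc 1 (X / 2 ^ i), dev f ρ h n ^ 2) +
        (1 - (1 / 2) ^ i) * (ε / 4 * (h : ℝ) ^ 2 * X) + i * (4 * (h : ℝ) ^ 2) := by
    intro i
    induction i with
    | zero => simp
    | succ i ih =>
      intro hi
      refine (ih (by omega)).trans ?_
      obtain ⟨Z, hZ⟩ : ∃ Z, Z = X / 2 ^ i := ⟨_, rfl⟩
      obtain ⟨Y, hY⟩ : ∃ Y, Y = X / 2 ^ (i + 1) := ⟨_, rfl⟩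
      rw [← hZ, ← hY]
      have hYZ : Y = Z / 2 := by rw [hY, hZ, Nat.div_div_eq_div_mul, pow_succ]
      have hYh : h ≤ Y := by
        rw [hY, Nat.le_div_iff_mul_le (Nat.two_pow_pos _), mul_comm]
        exact (Nat.mul_le_mul_right h (Nat.pow_le_pow_right two_pos (by omega))).trans hhX'
      have h1 := hmain Y h (by omega) (by omega) hYh
      have hsub : Icc 1 Z ⊆ Icc 1 Y ∪ (Ioc Y (2 * Y) ∪ {2 * Y + 1}) := fun n hn => by
        simp only [mem_Icc, mem_union, mem_Ioc, mem_singleton] at hn ⊢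
        omega
      have h2 := sum_le_sum_of_subset_of_nonneg hsub
        (f := fun n => dev f ρ h n ^ 2) fun n _ _ => sq_nonneg _
      have hu : ∀ s t : Finset ℕ, ∑ n ∈ s ∪ t, dev f ρ h n ^ 2 ≤
          (∑ n ∈ s, dev f ρ h n ^ 2) + ∑ n ∈ t, dev f ρ h n ^ 2 := fun s t => by
        rw [← sum_union_inter]
        linarith [sum_nonneg (s := s ∩ t) fun n _ => sq_nonneg (dev f ρ h n)]
      have h3 := h2.trans ((hu _ _).trans (add_le_add le_rfl (hu _ _)))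
      rw [sum_singleton] at h3
      have hYX : (Y : ℝ) ≤ (1 / 2) ^ (i + 1) * X := by
        rw [hY, div_pow, one_pow, div_mul_eq_mul_div, one_mul]
        refine le_trans Nat.cast_div_le ?_
        push_cast
        exact le_rfl
      have h4 := mul_le_mul_of_nonneg_left hYX (show 0 ≤ ε / 4 * (h : ℝ) ^ 2 by positivity)
      have e : (1 - (1 / 2 : ℝ) ^ i) * (ε / 4 * (h : ℝ) ^ 2 * X) +
          ε / 4 * (h : ℝ) ^ 2 * ((1 / 2) ^ (i + 1) * X) =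
          (1 - (1 / 2) ^ (i + 1)) * (ε / 4 * (h : ℝ) ^ 2 * X) := by ring
      push_cast
      linarith [hsq (2 * Y + 1)]
  refine (hrec J le_rfl).trans ?_
  have hlast : ∑ n ∈ Icc 1 (X / 2 ^ J), dev f ρ h n ^ 2 ≤ ε / 4 * (h : ℝ) ^ 2 * X := by
    refine (sum_le_card_nsmul _ _ _ fun n _ => hsq n).trans ?_
    rw [nsmul_eq_mul, Nat.card_Icc, Nat.add_sub_cancel]
    have h1 : ((X / 2 ^ J : ℕ) : ℝ) ≤ ε / 16 * X := by
      refine le_trans Nat.cast_div_le ?_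
      push_cast
      rw [div_eq_inv_mul, ← inv_pow, ← one_div]
      exact mul_le_mul_of_nonneg_right hJ.le (Nat.cast_nonneg X)
    have := mul_le_mul_of_nonneg_right h1 (show 0 ≤ 4 * (h : ℝ) ^ 2 by positivity)
    linarith
  have hJX : (J : ℝ) * (4 * (h : ℝ) ^ 2) ≤ ε / 4 * (h : ℝ) ^ 2 * X := by
    have h1 : (8 * (J : ℝ) + 1) * 4 / ε ≤ X := by
      refine (Nat.le_ceil _).trans (Nat.cast_le.2 (le_trans ?_ (le_trans
        (Nat.le_mul_of_pos_left h (Nat.two_pow_pos (J + 1))) hhX')))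
      omega
    rw [div_le_iff₀ hε] at h1
    have := mul_le_mul_of_nonneg_right h1 (sq_nonneg (h : ℝ))
    linarith [show 0 ≤ (J : ℝ) * (h : ℝ) ^ 2 by positivity, sq_nonneg (h : ℝ)]
  have : 0 ≤ ε * (h : ℝ) ^ 2 * X := by positivity
  have : 0 ≤ (1 / 2 : ℝ) ^ J * (ε / 4 * (h : ℝ) ^ 2 * X) := by positivity
  linarith

end FA.ShortMoebius

end
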