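import Fermat.Agent.ShortMoebius.Squares

/-!
# Consequences: both values of the Möbius function, averaged Chowla

`1_{μ = ± 1}` have mean `3 / π ^ 2` in almost all short intervals; the mean square of a short sum
from the start is the average of the two-point correlations over the shifts.
-/

set_option autoImplicit false

noncomputable section

namespace FA.ShortMoebius

open Finset Filter
open scoped Topology ArithmeticFunction.Moebius

/-- The indicator of `μ n = s`. -/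
def moebiusIs (s : ℤ) (n : ℕ) : ℝ := if μ n = s then 1 else 0

theorem abs_moebiusIs_le (s : ℤ) (n : ℕ) : |moebiusIs s n| ≤ 1 := by
  rw [moebiusIs]
  split_ifs <;> norm_num

theorem moebiusIs_eq {s : ℤ} (hs : s = 1 ∨ s = -1) (n : ℕ) :
    moebiusIs s n = 1 / 2 * sqfree n + (s : ℝ) / 2 * (μ n : ℝ) := by
  classical
  by_cases hn : Squarefree n
  · have h := ArithmeticFunction.moebius_apply_of_squarefree hn
    rcases neg_one_pow_eq_or ℤ (ArithmeticFunction.cardFactors n) with e | e <;> rw [e] at h <;>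
      rcases hs with rfl | rfl <;> simp [moebiusIs, sqfree, hn, h] <;> norm_num
  · rcases hs with rfl | rfl <;>
      simp [moebiusIs, sqfree, hn, ArithmeticFunction.moebius_eq_zero_of_not_squarefree hn]

/-- **The law of each sign of `μ`.** -/
theorem shortLaw_moebiusIs {s : ℤ} (hs : s = 1 ∨ s = -1) :
    ShortLaw (moebiusIs s) (3 / Real.pi ^ 2) := by
  have h := shortLaw_sqfree.combine shortLaw_moebius (a := 1 / 2) (b := (s : ℝ) / 2) (by norm_num)
    (by rcases hs with rfl | rfl <;> norm_num)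
  rw [show (fun n => 1 / 2 * sqfree n + (s : ℝ) / 2 * (μ n : ℝ)) = moebiusIs s from
    funext fun n => (moebiusIs_eq hs n).symm,
    show (1 : ℝ) / 2 * (6 / Real.pi ^ 2) + (s : ℝ) / 2 * 0 = 3 / Real.pi ^ 2 by ring] at h
  exact h

theorem abs_half_density_le : |3 / Real.pi ^ 2| ≤ (1 : ℝ) := by
  have := Real.pi_gt_three
  rw [abs_of_nonneg (by positivity), div_le_one (by positivity)]
  nlinarith

/-- The natural density form of a law. -/
theorem ShortLaw.naturalDensity {f : ℕ → ℝ} {ρ δ : ℝ} (hlaw : ShortLaw f ρ)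
    (hf : ∀ n, |f n| ≤ 1) (hρ : |ρ| ≤ 1) (hδ : 0 < δ) {ψ : ℕ → ℕ} (hψ : Tendsto ψ atTop atTop)
    (hψX : Tendsto (fun X : ℕ => (ψ X : ℝ) / X) atTop (𝓝 0)) :
    Tendsto (fun X : ℕ => (((Icc 1 X).filter fun m =>
      δ * (ψ X : ℝ) < |dev f ρ (ψ X) m|).card : ℝ) / X) atTop (𝓝 0) := by
  rw [Metric.tendsto_nhds]
  intro ε hε
  obtain ⟨H₀, c, hc, h⟩ := hlaw.upTo hf hρ (show 0 < ε / 2 * δ ^ 2 by positivity)
  filter_upwards [hψ.eventually_ge_atTop (max H₀ 1), eventually_ge_atTop 1,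
    hψX.eventually (ge_mem_nhds hc)] with X h1 hX h2
  have hX0 : (0 : ℝ) < X := Nat.cast_pos.2 hX
  rw [div_le_iff₀ hX0] at h2
  rw [Real.dist_0_eq_abs, abs_of_nonneg (by positivity), div_lt_iff₀ hX0]
  have h3 := h (ψ X) X (le_of_max_le_left h1) h2
  obtain ⟨S, hS⟩ : ∃ S, S = (Icc 1 X).filter fun m => δ * (ψ X : ℝ) < |dev f ρ (ψ X) m| := ⟨_, rfl⟩
  rw [← hS]
  have hpos : 0 < (δ * (ψ X : ℝ)) ^ 2 := by
    have : 1 ≤ ψ X := le_of_max_le_right h1
    positivity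
  refine lt_of_le_of_lt (le_of_mul_le_mul_right (c := ε / 2 * X) ?_ hpos)
    (mul_lt_mul_of_pos_right (by linarith) hX0)
  calc (S.card : ℝ) * (δ * (ψ X : ℝ)) ^ 2 ≤ ∑ m ∈ S, dev f ρ (ψ X) m ^ 2 := by
        rw [← nsmul_eq_mul]
        refine card_nsmul_le_sum _ _ _ fun m hm => ?_
        rw [hS, mem_filter] at hm
        exact sq_le_sq.2 (by rw [abs_of_nonneg (by positivity)]; exact hm.2.le)
    _ ≤ _ := (sum_le_sum_of_subset_of_nonneg (hS ▸ filter_subset _ _)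
        fun m _ _ => sq_nonneg _).trans h3
    _ = _ := by ring

/-- **Both values occur in almost all short intervals.** -/
theorem tendsto_missing_sign {s : ℤ} (hs : s = 1 ∨ s = -1) {ψ : ℕ → ℕ}
    (hψ : Tendsto ψ atTop atTop) (hψX : Tendsto (fun X : ℕ => (ψ X : ℝ) / X) atTop (𝓝 0)) :
    Tendsto (fun X : ℕ => (((Icc 1 X).filter fun m =>
      ∀ n ∈ Ioc m (m + ψ X), μ n ≠ s).card : ℝ) / X) atTop (𝓝 0) := by
  have hρ : 0 < 3 / Real.pi ^ 2 := by positivity
  refine squeeze_zero' (Eventually.of_forall fun X => by positivity) ?_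
    ((shortLaw_moebiusIs hs).naturalDensity (abs_moebiusIs_le s) abs_half_density_le
      (show 0 < 3 / Real.pi ^ 2 / 2 by positivity) hψ hψX)
  filter_upwards [hψ.eventually_ge_atTop 1] with X hX
  refine div_le_div_of_nonneg_right (Nat.cast_le.2 (card_le_card fun m hm => ?_))
    (Nat.cast_nonneg X)
  obtain ⟨hmX, hm⟩ := mem_filter.1 hm
  refine mem_filter.2 ⟨hmX, ?_⟩
  have hh : (0 : ℝ) < ψ X := Nat.cast_pos.2 hX
  rw [dev, sum_eq_zero fun n hn => show moebiusIs s n = 0 from if_neg (hm n hn), zero_sub, abs_neg,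
    abs_of_pos (mul_pos hρ hh)]
  exact mul_lt_mul_of_pos_right (by linarith) hh

theorem sum_window_eq (f : ℕ → ℝ) (H n : ℕ) :
    ∑ k ∈ Ioc n (n + H), f k = ∑ j ∈ Icc 1 H, f (n + j) := by
  refine sum_nbij' (· - n) (n + ·) (fun k hk => ?_) (fun j hj => ?_) (fun k hk => ?_)
    (fun j _ => ?_) (fun k hk => ?_) <;> simp only [mem_Ioc, mem_Icc] at *
  · omega
  · omega
  · omega
  · omega
  · rw [Nat.add_sub_cancel' (by omega)]

/-- **Averaged two-point correlations.** -/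
theorem ShortLaw.correlations {f : ℕ → ℝ} (hlaw : ShortLaw f 0) (hf : ∀ n, |f n| ≤ 1) {ε : ℝ}
    (hε : 0 < ε) : ∃ H₀ : ℕ, ∃ c : ℝ, 0 < c ∧ ∀ H X : ℕ, H₀ ≤ H → (H : ℝ) ≤ c * X →
      |∑ h₁ ∈ Icc 1 H, ∑ h₂ ∈ Icc 1 H, ∑ n ∈ Icc 1 X, f (n + h₁) * f (n + h₂)| ≤
        ε * (H : ℝ) ^ 2 * X := by
  obtain ⟨H₀, c, hc, h⟩ := hlaw.upTo hf (by norm_num) hε
  refine ⟨H₀, c, hc, fun H X hH hHX => ?_⟩
  have e : ∑ h₁ ∈ Icc 1 H, ∑ h₂ ∈ Icc 1 H, ∑ n ∈ Icc 1 X, f (n + h₁) * f (n + h₂) =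
      ∑ n ∈ Icc 1 X, dev f 0 H n ^ 2 := by
    simp only [dev, zero_mul, sub_zero, sum_window_eq, sq, sum_mul_sum]
    rw [sum_comm (s := Icc 1 X)]
    exact sum_congr rfl fun _ _ => sum_comm
  rw [e, abs_of_nonneg (sum_nonneg fun n _ => sq_nonneg _)]
  exact h H X hH hHX

end FA.ShortMoebius

end
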